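import Mathlib
import Fermat.Prelude.Def_ModularForm_HeckeOperator
import Fermat.Prelude.Thm_CongruenceSubgroup_one_mem_strictPeriods_Gamma0
import Fermat.Agent.S23.Basic
import Fermat.Agent.S23.LevelRaise

/-!
# Level raising `F(τ) ↦ F(Nτ)` for level one forms

`Vfun N F τ = F (Nτ)`; it is a modular form of the same weight on `Γ₀(N)` and its `q`-expansion is
`PowerSeries.expand N` of the `q`-expansion of `F`.
-/

set_option autoImplicit false

namespace Fermat.Agent.Lib.Hauptmodul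

open UpperHalfPlane ModularForm MatrixGroups CongruenceSubgroup Matrix.SpecialLinearGroup
open scoped ModularForm Manifold Pointwise
open Fermat.Agent.S23

/-- `τ ↦ F(Nτ)`. -/
noncomputable def Vfun (N : ℕ) (F : ℍ → ℂ) : ℍ → ℂ := fun τ => F (heckeDiagMatrix N • τ)

theorem isMF_slash_heckeDiag (N : ℕ) [NeZero N] {k : ℤ} (F : ModularForm 𝒮ℒ k) :
    IsMF (G0 N) k (⇑F ∣[k] heckeDiagMatrix N) :=
  ⟨{ toFun := ⇑F ∣[k] heckeDiagMatrix N
     slash_action_eq' := fun γ hγ =>
      (ModularForm.translate F (heckeDiagMatrix N)).slash_action_eq' γ (G0_le_conj N hγ)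
     holo' := (ModularForm.translate F (heckeDiagMatrix N)).holo'
     bdd_at_cusps' := fun hc =>
      (ModularForm.translate F (heckeDiagMatrix N)).bdd_at_cusps' (hc.mono (G0_le_conj N)) }, rfl⟩

theorem isMF_Vfun (N : ℕ) [NeZero N] {k : ℤ} (F : ModularForm 𝒮ℒ k) :
    IsMF (G0 N) k (Vfun N F) := by
  have hN : (N : ℂ) ≠ 0 := by exact_mod_cast NeZero.ne N
  have h2 : Vfun N F = ((N : ℂ) ^ (k - 1))⁻¹ • (⇑F ∣[k] heckeDiagMatrix N) := by
    ext τ
    rw [Pi.smul_apply, slash_heckeDiagMatrix_apply _ (NeZero.ne N), smul_eq_mul, ← mul_assoc,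
      inv_mul_cancel₀ (zpow_ne_zero _ hN), one_mul]
    rfl
  rw [h2]
  exact (isMF_slash_heckeDiag N F).smul _

theorem hasSum_Vfun (N : ℕ) [NeZero N] {k : ℤ} (F : ModularForm 𝒮ℒ k) (τ : ℍ) :
    HasSum (fun n : ℕ => ((qExpansion 1 F).expand N (NeZero.ne N)).coeff n •
        Function.Periodic.qParam 1 (τ : ℂ) ^ n) (Vfun N F τ) := by
  have hN : N ≠ 0 := NeZero.ne N
  have h1 := ModularForm.hasSum_qExpansion (f := F) one_pos
    one_mem_strictPeriods_SL (heckeDiagMatrix N • τ)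
  rw [qParam_heckeDiag] at h1
  have hinj : Function.Injective (fun m : ℕ => N * m) := fun a b hab =>
    Nat.eq_of_mul_eq_mul_left (Nat.pos_of_ne_zero hN) hab
  rw [← hinj.hasSum_iff]
  · have hfun : ((fun n : ℕ => ((qExpansion 1 F).expand N (NeZero.ne N)).coeff n •
          Function.Periodic.qParam 1 (τ : ℂ) ^ n) ∘ fun m : ℕ => N * m) =
        fun i => (qExpansion 1 F).coeff i •
          (Function.Periodic.qParam 1 (τ : ℂ) ^ N) ^ i := by
      funext m
      simp [pow_mul]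
    rw [hfun]
    exact h1
  · intro n hn
    have : ¬ N ∣ n := fun ⟨m, hm⟩ => hn ⟨m, hm.symm⟩
    simp [PowerSeries.coeff_expand_of_not_dvd N hN _ this]

theorem qExpansion_Vfun (N : ℕ) [NeZero N] {k : ℤ} (F : ModularForm 𝒮ℒ k) :
    qExpansion 1 (Vfun N F) = (qExpansion 1 F).expand N (NeZero.ne N) := by
  obtain ⟨a, ha⟩ := isMF_Vfun N F
  ext n
  rw [← ha]
  refine (ModularFormClass.qExpansion_coeff_unique
    (c := fun n => ((qExpansion 1 F).expand N (NeZero.ne N)).coeff n) one_pos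
    (CongruenceSubgroup.one_mem_strictPeriods_Gamma0 N) (f := a) ?_ n).symm
  intro τ
  rw [ha]
  exact hasSum_Vfun N F τ

end Fermat.Agent.Lib.Hauptmodul
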