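import Mathlib

/-!
# Six-term truncations of integral power series

`Tr f a₀ … a₅` records the first six coefficients of `f : ℤ⟦X⟧`; the lemmas below compute the
truncation of sums, products, shifts and expansions.
-/

set_option autoImplicit false

namespace Fermat.Agent.Lib.Hauptmodul

open PowerSeries

/-- the first six coefficients of `f` are `a₀, …, a₅`. -/
structure Tr (f : PowerSeries ℤ) (a0 a1 a2 a3 a4 a5 : ℤ) : Prop where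
  h0 : coeff 0 f = a0
  h1 : coeff 1 f = a1
  h2 : coeff 2 f = a2
  h3 : coeff 3 f = a3
  h4 : coeff 4 f = a4
  h5 : coeff 5 f = a5

namespace Tr

variable {f g : PowerSeries ℤ} {a0 a1 a2 a3 a4 a5 b0 b1 b2 b3 b4 b5 : ℤ}

theorem congr (h : Tr f a0 a1 a2 a3 a4 a5) (e0 : a0 = b0) (e1 : a1 = b1) (e2 : a2 = b2)
    (e3 : a3 = b3) (e4 : a4 = b4) (e5 : a5 = b5) : Tr f b0 b1 b2 b3 b4 b5 := by
  subst e0 e1 e2 e3 e4 e5; exact h

theorem add (hf : Tr f a0 a1 a2 a3 a4 a5) (hg : Tr g b0 b1 b2 b3 b4 b5) :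
    Tr (f + g) (a0 + b0) (a1 + b1) (a2 + b2) (a3 + b3) (a4 + b4) (a5 + b5) :=
  ⟨by rw [map_add, hf.h0, hg.h0], by rw [map_add, hf.h1, hg.h1], by rw [map_add, hf.h2, hg.h2],
    by rw [map_add, hf.h3, hg.h3], by rw [map_add, hf.h4, hg.h4], by rw [map_add, hf.h5, hg.h5]⟩

theorem sub (hf : Tr f a0 a1 a2 a3 a4 a5) (hg : Tr g b0 b1 b2 b3 b4 b5) :
    Tr (f - g) (a0 - b0) (a1 - b1) (a2 - b2) (a3 - b3) (a4 - b4) (a5 - b5) :=
  ⟨by rw [map_sub, hf.h0, hg.h0], by rw [map_sub, hf.h1, hg.h1], by rw [map_sub, hf.h2, hg.h2],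
    by rw [map_sub, hf.h3, hg.h3], by rw [map_sub, hf.h4, hg.h4], by rw [map_sub, hf.h5, hg.h5]⟩

theorem mul (hf : Tr f a0 a1 a2 a3 a4 a5) (hg : Tr g b0 b1 b2 b3 b4 b5) :
    Tr (f * g) (a0 * b0) (a0 * b1 + a1 * b0) (a0 * b2 + a1 * b1 + a2 * b0)
      (a0 * b3 + a1 * b2 + a2 * b1 + a3 * b0) (a0 * b4 + a1 * b3 + a2 * b2 + a3 * b1 + a4 * b0)
      (a0 * b5 + a1 * b4 + a2 * b3 + a3 * b2 + a4 * b1 + a5 * b0) := by
  obtain ⟨f0, f1, f2, f3, f4, f5⟩ := hf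
  obtain ⟨g0, g1, g2, g3, g4, g5⟩ := hg
  refine ⟨?_, ?_, ?_, ?_, ?_, ?_⟩ <;>
  · rw [coeff_mul, Finset.Nat.sum_antidiagonal_eq_sum_range_succ_mk]
    simp only [Finset.sum_range_succ, Finset.sum_range_zero, zero_add, Nat.sub_zero,
      Nat.reduceSub, f0, f1, f2, f3, f4, f5, g0, g1, g2, g3, g4, g5]

theorem one : Tr 1 1 0 0 0 0 0 := by
  refine ⟨?_, ?_, ?_, ?_, ?_, ?_⟩ <;> simp [coeff_one]

theorem intCast (c : ℤ) : Tr (c : PowerSeries ℤ) c 0 0 0 0 0 := by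
  have : (c : PowerSeries ℤ) = C c := (map_intCast (C (R := ℤ)) c).symm
  rw [this]
  refine ⟨?_, ?_, ?_, ?_, ?_, ?_⟩ <;> rw [coeff_C] <;> norm_num

theorem X_mul (hf : Tr f a0 a1 a2 a3 a4 a5) : Tr (X * f) 0 a0 a1 a2 a3 a4 := by
  obtain ⟨f0, f1, f2, f3, f4, f5⟩ := hf
  refine ⟨?_, ?_, ?_, ?_, ?_, ?_⟩
  · simp
  all_goals rw [coeff_succ_X_mul]; assumption

theorem expand2 (hf : Tr f a0 a1 a2 a3 a4 a5) :
    Tr (expand 2 two_ne_zero f) a0 0 a1 0 a2 0 := by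
  obtain ⟨f0, f1, f2, f3, f4, f5⟩ := hf
  refine ⟨?_, ?_, ?_, ?_, ?_, ?_⟩ <;> rw [coeff_expand] <;>
    simp only [Nat.reduceDiv, Nat.zero_div, dvd_zero, if_true, Nat.reduceDvd, if_false,
      Nat.dvd_refl] <;> first | rfl | assumption

theorem expand3 (hf : Tr f a0 a1 a2 a3 a4 a5) :
    Tr (expand 3 three_ne_zero f) a0 0 0 a1 0 0 := by
  obtain ⟨f0, f1, f2, f3, f4, f5⟩ := hf
  refine ⟨?_, ?_, ?_, ?_, ?_, ?_⟩ <;> rw [coeff_expand] <;>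
    simp only [Nat.reduceDiv, Nat.zero_div, dvd_zero, if_true, Nat.reduceDvd, if_false,
      Nat.dvd_refl] <;> first | rfl | assumption

theorem coeff_eq_zero (hf : Tr f 0 0 0 0 0 0) {n : ℕ} (hn : n ≤ 5) : coeff n f = 0 := by
  obtain ⟨f0, f1, f2, f3, f4, f5⟩ := hf
  interval_cases n <;> assumption

end Tr

end Fermat.Agent.Lib.Hauptmodul
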