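import Mathlib
import Fermat.Prelude.Def_ModularCurve_X0
import Fermat.Agent.Lib.Hauptmodul.Trunc

/-!
# The formal series entering the Hauptmoduln of `X₀(2)` and `X₀(3)`

`sig3 = ∑ σ₃(n) qⁿ`, `DeltaS = q ∏ (1 - qⁿ)²⁴`, and
* `u2 = e - e(q²)`, `w2 = 1 + 256 e(q²) - 16 e`,
* `u3 = e - e(q³)`, `w3 = 1 + 243 e(q³) - 3 e`, `s3 = 1 + 24 (e + 9 e(q³))`,
together with their first six coefficients.
-/

set_option autoImplicit false

namespace Fermat.Agent.Lib.Hauptmodul

open PowerSeries ModularCurve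

/-- `∑ σ₃(n) qⁿ`. -/
noncomputable def sig3 : PowerSeries ℤ :=
  PowerSeries.mk fun n => if n = 0 then 0 else ∑ d ∈ n.divisors, (d : ℤ) ^ 3

theorem eisenstein4_eq : eisenstein4 = 1 + 240 * sig3 := by
  have h240 : (240 : PowerSeries ℤ) = C 240 := (map_ofNat (C (R := ℤ)) 240).symm
  ext n
  rw [h240, map_add, coeff_C_mul, eisenstein4, sig3, coeff_mk, coeff_mk, coeff_one]
  by_cases hn : n = 0 <;> simp [hn]

/-- `q ∏ (1 - qⁿ)²⁴`. -/
noncomputable def DeltaS : PowerSeries ℤ := X * dedekindEtaUnit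

/-- `f(q) ↦ f(q²)`. -/
noncomputable abbrev V2 : PowerSeries ℤ →ₐ[ℤ] PowerSeries ℤ := expand 2 two_ne_zero

/-- `f(q) ↦ f(q³)`. -/
noncomputable abbrev V3 : PowerSeries ℤ →ₐ[ℤ] PowerSeries ℤ := expand 3 three_ne_zero

noncomputable def u2 : PowerSeries ℤ := sig3 - V2 sig3
noncomputable def w2 : PowerSeries ℤ := 1 + 256 * V2 sig3 - 16 * sig3
noncomputable def u3 : PowerSeries ℤ := sig3 - V3 sig3
noncomputable def w3 : PowerSeries ℤ := 1 + 243 * V3 sig3 - 3 * sig3
noncomputable def s3 : PowerSeries ℤ := 1 + 24 * (sig3 + 9 * V3 sig3)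

theorem w2_add_256 : w2 + 256 * u2 = eisenstein4 := by
  rw [w2, u2, eisenstein4_eq]; ring

theorem w2_add_16 : w2 + 16 * u2 = V2 eisenstein4 := by
  rw [w2, u2, eisenstein4_eq, map_add, map_mul, map_one, map_ofNat]; ring

theorem w3_add_243 : w3 + 243 * u3 = eisenstein4 := by
  rw [w3, u3, eisenstein4_eq]; ring

theorem w3_add_27 : w3 + 27 * u3 = s3 := by
  rw [w3, u3, s3]; ring

theorem w3_add_3 : w3 + 3 * u3 = V3 eisenstein4 := by
  rw [w3, u3, eisenstein4_eq, map_add, map_mul, map_one, map_ofNat]; ring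

/-! ### truncations -/

theorem tr_sig3 : Tr sig3 0 1 9 28 73 126 := by
  refine ⟨?_, ?_, ?_, ?_, ?_, ?_⟩ <;> rw [sig3, coeff_mk] <;> decide +kernel

theorem not_pentagonal_three : (3 : ℕ) ∉ Set.range pentagonal := by
  rintro ⟨k, hk⟩
  have h := two_mul_natCast_pentagonal k
  rw [hk] at h
  push_cast at h
  have h1 : k ≤ 2 := by nlinarith
  have h2 : -2 ≤ k := by nlinarith
  interval_cases k <;> omega

theorem not_pentagonal_four : (4 : ℕ) ∉ Set.range pentagonal := by
  rintro ⟨k, hk⟩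
  have h := two_mul_natCast_pentagonal k
  rw [hk] at h
  push_cast at h
  have h1 : k ≤ 2 := by nlinarith
  have h2 : -2 ≤ k := by nlinarith
  interval_cases k <;> omega

open scoped PowerSeries.WithPiTopology in
theorem etaProd_eq_pentagonalSeries : etaProd = pentagonalSeries ℤ := by
  rw [etaProd]
  exact PowerSeries.WithPiTopology.tprod_one_sub_X_pow ℤ

theorem tr_etaProd : Tr etaProd 1 (-1) (-1) 0 0 1 := by
  rw [etaProd_eq_pentagonalSeries]
  refine ⟨?_, ?_, ?_, ?_, ?_, ?_⟩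
  · have := coeff_pentagonalSeries_pentagonal ℤ 0
    simpa [pentagonal_def] using this
  · have := coeff_pentagonalSeries_pentagonal ℤ 1
    simpa [pentagonal_def] using this
  · have := coeff_pentagonalSeries_pentagonal ℤ (-1)
    simpa [pentagonal_def] using this
  · exact coeff_pentagonalSeries_eq_zero ℤ not_pentagonal_three
  · exact coeff_pentagonalSeries_eq_zero ℤ not_pentagonal_four
  · have := coeff_pentagonalSeries_pentagonal ℤ 2
    simpa [pentagonal_def] using this

theorem tr_dedekindEtaUnit : Tr dedekindEtaUnit 1 (-24) 252 (-1472) 4830 (-6048) := by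
  have h1 := tr_etaProd
  have h2 : Tr (etaProd * etaProd) 1 (-2) (-1) 2 1 2 :=
    (h1.mul h1).congr (by norm_num) (by norm_num) (by norm_num) (by norm_num) (by norm_num)
      (by norm_num)
  have h3 : Tr (etaProd * etaProd * etaProd) 1 (-3) 0 5 0 0 :=
    (h2.mul h1).congr (by norm_num) (by norm_num) (by norm_num) (by norm_num) (by norm_num)
      (by norm_num)
  have h6 := (h3.mul h3).congr (b0 := 1) (b1 := -6) (b2 := 9) (b3 := 10) (b4 := -30) (b5 := 0)
    (by norm_num) (by norm_num) (by norm_num) (by norm_num) (by norm_num) (by norm_num)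
  have h12 := (h6.mul h6).congr (b0 := 1) (b1 := -12) (b2 := 54) (b3 := -88) (b4 := -99)
    (b5 := 540)
    (by norm_num) (by norm_num) (by norm_num) (by norm_num) (by norm_num) (by norm_num)
  have h24 := (h12.mul h12).congr (b0 := 1) (b1 := -24) (b2 := 252) (b3 := -1472) (b4 := 4830)
    (b5 := -6048)
    (by norm_num) (by norm_num) (by norm_num) (by norm_num) (by norm_num) (by norm_num)
  have e : dedekindEtaUnit = etaProd * etaProd * etaProd * (etaProd * etaProd * etaProd) *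
      (etaProd * etaProd * etaProd * (etaProd * etaProd * etaProd)) *
      (etaProd * etaProd * etaProd * (etaProd * etaProd * etaProd) *
      (etaProd * etaProd * etaProd * (etaProd * etaProd * etaProd))) := by
    rw [dedekindEtaUnit]; ring
  rw [e]
  exact h24

theorem tr_DeltaS : Tr DeltaS 0 1 (-24) 252 (-1472) 4830 := tr_dedekindEtaUnit.X_mul

theorem tr_ofNat (n : ℕ) [n.AtLeastTwo] : Tr (OfNat.ofNat n : PowerSeries ℤ) (OfNat.ofNat n) 0 0 0 0 0 := by
  have := Tr.intCast (OfNat.ofNat n : ℤ)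
  rwa [Int.cast_ofNat] at this

theorem tr_u2 : Tr u2 0 1 8 28 64 126 :=
  (tr_sig3.sub tr_sig3.expand2).congr (by norm_num) (by norm_num) (by norm_num) (by norm_num)
    (by norm_num) (by norm_num)

theorem tr_w2 : Tr w2 1 (-16) 112 (-448) 1136 (-2016) :=
  ((Tr.one.add ((tr_ofNat 256).mul tr_sig3.expand2)).sub ((tr_ofNat 16).mul tr_sig3)).congr
    (by norm_num) (by norm_num) (by norm_num) (by norm_num) (by norm_num) (by norm_num)

theorem tr_u3 : Tr u3 0 1 9 27 73 126 :=
  (tr_sig3.sub tr_sig3.expand3).congr (by norm_num) (by norm_num) (by norm_num) (by norm_num)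
    (by norm_num) (by norm_num)

theorem tr_w3 : Tr w3 1 (-3) (-27) 159 (-219) (-378) :=
  ((Tr.one.add ((tr_ofNat 243).mul tr_sig3.expand3)).sub ((tr_ofNat 3).mul tr_sig3)).congr
    (by norm_num) (by norm_num) (by norm_num) (by norm_num) (by norm_num) (by norm_num)

theorem tr_s3 : Tr s3 1 24 216 888 1752 3024 :=
  (Tr.one.add ((tr_ofNat 24).mul (tr_sig3.add ((tr_ofNat 9).mul tr_sig3.expand3)))).congr
    (by norm_num) (by norm_num) (by norm_num) (by norm_num) (by norm_num) (by norm_num)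

theorem tr_A2 : Tr (DeltaS - u2 * (w2 * w2)) 0 0 0 0 0 0 :=
  (tr_DeltaS.sub (tr_u2.mul (tr_w2.mul tr_w2))).congr
    (by norm_num) (by norm_num) (by norm_num) (by norm_num) (by norm_num) (by norm_num)

theorem tr_B2 : Tr (V2 DeltaS - u2 * u2 * w2) 0 0 0 0 0 0 :=
  (tr_DeltaS.expand2.sub ((tr_u2.mul tr_u2).mul tr_w2)).congr
    (by norm_num) (by norm_num) (by norm_num) (by norm_num) (by norm_num) (by norm_num)

theorem tr_A3 : Tr (s3 * DeltaS - u3 * (w3 * w3 * w3)) 0 0 0 0 0 0 :=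
  ((tr_s3.mul tr_DeltaS).sub (tr_u3.mul ((tr_w3.mul tr_w3).mul tr_w3))).congr
    (by norm_num) (by norm_num) (by norm_num) (by norm_num) (by norm_num) (by norm_num)

theorem tr_B3 : Tr (s3 * V3 DeltaS - u3 * u3 * u3 * w3) 0 0 0 0 0 0 :=
  ((tr_s3.mul tr_DeltaS.expand3).sub (((tr_u3.mul tr_u3).mul tr_u3).mul tr_w3)).congr
    (by norm_num) (by norm_num) (by norm_num) (by norm_num) (by norm_num) (by norm_num)

end Fermat.Agent.Lib.Hauptmodul
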