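import Mathlib
import Fermat.Prelude.Def_ModularCurve_X0
import Fermat.Prelude.Thm_ModularForm_sturm_bound_Gamma0
import Fermat.Agent.S20.OrbitCounts
import Fermat.Agent.S23.Basic
import Fermat.Agent.Lib.JQExp
import Fermat.Agent.Lib.Hauptmodul.Raise
import Fermat.Agent.Lib.Hauptmodul.Series

/-!
# The four product identities

* `DeltaS = u2 * w2 ^ 2`, `V2 DeltaS = u2 ^ 2 * w2`  (weight 12 on `Γ₀(2)`),
* `s3 * DeltaS = u3 * w3 ^ 3`, `s3 * V3 DeltaS = u3 ^ 3 * w3`  (weight 16 on `Γ₀(3)`),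
proved by the Sturm bound.
-/

set_option autoImplicit false

namespace Fermat.Agent.Lib.Hauptmodul

open UpperHalfPlane ModularForm MatrixGroups CongruenceSubgroup EisensteinSeries
open scoped ModularForm Manifold
open PowerSeries ModularCurve
open Fermat.Agent.S23

/-- `f` is the `q`-expansion of a modular form of weight `k` on `Γ₀(r)`. -/
def Rep (r : ℕ) (k : ℤ) (f : PowerSeries ℤ) : Prop :=
  ∃ F : ℍ → ℂ, IsMF (G0 r) k F ∧ qExpansion 1 F = f.map (Int.castRingHom ℂ)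

namespace Rep

variable {r : ℕ} [NeZero r] {k k₁ k₂ : ℤ} {f g : PowerSeries ℤ}

theorem add (hf : Rep r k f) (hg : Rep r k g) : Rep r k (f + g) := by
  obtain ⟨F, hF, eF⟩ := hf
  obtain ⟨G, hG, eG⟩ := hg
  exact ⟨F + G, hF.add hG, by rw [hF.nice_G0.qx_add hG.nice_G0, eF, eG, map_add]⟩

theorem sub (hf : Rep r k f) (hg : Rep r k g) : Rep r k (f - g) := by
  obtain ⟨F, hF, eF⟩ := hf
  obtain ⟨G, hG, eG⟩ := hg
  exact ⟨F - G, hF.sub hG, by rw [hF.nice_G0.qx_sub hG.nice_G0, eF, eG, map_sub]⟩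

theorem mul (hf : Rep r k₁ f) (hg : Rep r k₂ g) : Rep r (k₁ + k₂) (f * g) := by
  obtain ⟨F, hF, eF⟩ := hf
  obtain ⟨G, hG, eG⟩ := hg
  exact ⟨F * G, hF.mul hG, by rw [hF.nice_G0.qx_mul hG.nice_G0, eF, eG, map_mul]⟩

theorem intCast_mul (c : ℤ) (hf : Rep r k f) : Rep r k ((c : PowerSeries ℤ) * f) := by
  obtain ⟨F, hF, eF⟩ := hf
  refine ⟨(c : ℂ) • F, hF.smul _, ?_⟩
  rw [hF.nice_G0.qx_smul, eF, map_mul, map_intCast]
  ext n
  have : ((c : ℤ) : PowerSeries ℂ) = C (c : ℂ) := (map_intCast (C (R := ℂ)) c).symm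
  rw [this, coeff_C_mul]
  simp

theorem ofNat_mul (n : ℕ) [n.AtLeastTwo] (hf : Rep r k f) :
    Rep r k ((OfNat.ofNat n : PowerSeries ℤ) * f) := by
  have := intCast_mul (OfNat.ofNat n : ℤ) hf
  rwa [Int.cast_ofNat] at this

omit [NeZero r] in
theorem cast (h : k₁ = k₂) (hf : Rep r k₁ f) : Rep r k₂ f := h ▸ hf

/-- **Sturm bound** for integral `q`-expansions. -/
theorem eq_of_coeff (hf : Rep r k f) (hg : Rep r k g)
    (h : ∀ n : ℕ, n ≤ (k * (Gamma0 r).index).toNat / 12 → coeff n (f - g) = 0) : f = g := by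
  obtain ⟨F, ⟨a, ha⟩, eF⟩ := hf.sub hg
  have h0 : a = 0 := by
    refine ModularForm.sturm_bound_Gamma0 r a fun n hn => ?_
    rw [ha, eF, coeff_map, h n hn, map_zero]
  have h1 : (f - g).map (Int.castRingHom ℂ) = 0 := by
    rw [← eF, ← ha, h0]
    simpa using qExpansion_zero 1
  have h2 : f - g = 0 := by
    ext n
    have := congrArg (coeff n) h1
    rw [coeff_map, map_zero, eq_intCast] at this
    rw [map_zero]
    exact_mod_cast this
  exact sub_eq_zero.mp h2

end Rep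

theorem rep_eisenstein4 (r : ℕ) [NeZero r] : Rep r 4 eisenstein4 :=
  ⟨E₄, (IsMF.of E₄).mono (G0_le_SL r), Fermat.Agent.Lib.JQExp.qExpansion_E4⟩

theorem rep_expand_eisenstein4 (r : ℕ) [NeZero r] :
    Rep r 4 (expand r (NeZero.ne r) eisenstein4) :=
  ⟨Vfun r E₄, isMF_Vfun r E₄, by
    rw [qExpansion_Vfun, Fermat.Agent.Lib.JQExp.qExpansion_E4, map_expand]⟩

theorem qExpansion_discriminantMF :
    qExpansion 1 (CuspForm.toModularFormₗ CuspForm.discriminant : ModularForm 𝒮ℒ 12) =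
      DeltaS.map (Int.castRingHom ℂ) := by
  have : ((CuspForm.toModularFormₗ CuspForm.discriminant : ModularForm 𝒮ℒ 12) : ℍ → ℂ) =
      ModularForm.discriminant := rfl
  rw [this, Fermat.Agent.Lib.JQExp.qExpansion_discriminant, DeltaS, map_mul, map_X]

theorem rep_DeltaS (r : ℕ) [NeZero r] : Rep r 12 DeltaS :=
  ⟨(CuspForm.toModularFormₗ CuspForm.discriminant : ModularForm 𝒮ℒ 12),
    (IsMF.of _).mono (G0_le_SL r), qExpansion_discriminantMF⟩

theorem rep_expand_DeltaS (r : ℕ) [NeZero r] :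
    Rep r 12 (expand r (NeZero.ne r) DeltaS) :=
  ⟨Vfun r (CuspForm.toModularFormₗ CuspForm.discriminant : ModularForm 𝒮ℒ 12), isMF_Vfun r _, by
    rw [qExpansion_Vfun, qExpansion_discriminantMF, map_expand]⟩

theorem index_Gamma0_two : (Gamma0 2).index = 3 := by
  rw [Fermat.Agent.S20.AR.index_Gamma0 2 two_ne_zero]
  decide +kernel

theorem index_Gamma0_three : (Gamma0 3).index = 4 := by
  rw [Fermat.Agent.S20.AR.index_Gamma0 3 three_ne_zero]
  decide +kernel

/-! ### level 2 -/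

theorem rep_u2 : Rep 2 4 (240 * u2) := by
  have : 240 * u2 = eisenstein4 - V2 eisenstein4 := by
    rw [← w2_add_16, ← w2_add_256]; ring
  rw [this]
  exact (rep_eisenstein4 2).sub (rep_expand_eisenstein4 2)

theorem rep_w2 : Rep 2 4 (15 * w2) := by
  have : 15 * w2 = 16 * V2 eisenstein4 - eisenstein4 := by
    rw [← w2_add_16, ← w2_add_256]; ring
  rw [this]
  exact ((rep_expand_eisenstein4 2).ofNat_mul 16).sub (rep_eisenstein4 2)

theorem mul_left_cancel_ofNat {n : ℕ} [n.AtLeastTwo] {f g : PowerSeries ℤ}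
    (h : (OfNat.ofNat n : PowerSeries ℤ) * f = OfNat.ofNat n * g) : f = g := by
  have hn : (OfNat.ofNat n : PowerSeries ℤ) ≠ 0 := by
    have : (OfNat.ofNat n : PowerSeries ℤ) = C (OfNat.ofNat n : ℤ) := (map_ofNat C n).symm
    rw [this]
    intro h0
    have := congrArg constantCoeff h0
    rw [constantCoeff_C, map_zero] at this
    exact OfNat.ofNat_ne_zero n this
  exact mul_left_cancel₀ hn h

/-- `Δ(q) = u w²`. -/
theorem DeltaS_eq_two : DeltaS = u2 * w2 ^ 2 := by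
  apply mul_left_cancel_ofNat (n := 54000)
  have e : (54000 : PowerSeries ℤ) * (u2 * w2 ^ 2) = 240 * u2 * ((15 * w2) * (15 * w2)) := by ring
  refine Rep.eq_of_coeff (r := 2) (k := 12) ((rep_DeltaS 2).ofNat_mul 54000) ?_ fun n hn => ?_
  · rw [e]
    exact (rep_u2.mul (rep_w2.mul rep_w2)).cast (by norm_num)
  · rw [index_Gamma0_two] at hn
    have hn' : n ≤ 5 := le_trans hn (by decide)
    have e2 : (54000 : PowerSeries ℤ) * DeltaS - 54000 * (u2 * w2 ^ 2) =
        C 54000 * (DeltaS - u2 * (w2 * w2)) := by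
      rw [map_ofNat]; ring
    rw [e2, coeff_C_mul, tr_A2.coeff_eq_zero hn', mul_zero]

/-- `Δ(q²) = u² w`. -/
theorem V2_DeltaS_eq : V2 DeltaS = u2 ^ 2 * w2 := by
  apply mul_left_cancel_ofNat (n := 864000)
  have e : (864000 : PowerSeries ℤ) * (u2 ^ 2 * w2) = 240 * u2 * ((240 * u2) * (15 * w2)) := by
    ring
  refine Rep.eq_of_coeff (r := 2) (k := 12) ((rep_expand_DeltaS 2).ofNat_mul 864000) ?_
    fun n hn => ?_
  · rw [e]
    exact (rep_u2.mul (rep_u2.mul rep_w2)).cast (by norm_num)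
  · rw [index_Gamma0_two] at hn
    have hn' : n ≤ 5 := le_trans hn (by decide)
    have e2 : (864000 : PowerSeries ℤ) * V2 DeltaS - 864000 * (u2 ^ 2 * w2) =
        C 864000 * (V2 DeltaS - u2 * u2 * w2) := by
      rw [map_ofNat]; ring
    exact (congrArg (coeff n) e2).trans
      (by rw [coeff_C_mul, tr_B2.coeff_eq_zero hn', mul_zero])

/-! ### level 3 -/

theorem rep_u3 : Rep 3 4 (240 * u3) := by
  have : 240 * u3 = eisenstein4 - V3 eisenstein4 := by
    rw [← w3_add_3, ← w3_add_243]; ring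
  rw [this]
  exact (rep_eisenstein4 3).sub (rep_expand_eisenstein4 3)

theorem rep_w3 : Rep 3 4 (80 * w3) := by
  have : 80 * w3 = 81 * V3 eisenstein4 - eisenstein4 := by
    rw [← w3_add_3, ← w3_add_243]; ring
  rw [this]
  exact ((rep_expand_eisenstein4 3).ofNat_mul 81).sub (rep_eisenstein4 3)

theorem rep_s3 : Rep 3 4 (10 * s3) := by
  have : 10 * s3 = eisenstein4 + 9 * V3 eisenstein4 := by
    rw [← w3_add_3, ← w3_add_243, ← w3_add_27]; ring
  rw [this]
  exact (rep_eisenstein4 3).add ((rep_expand_eisenstein4 3).ofNat_mul 9)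

/-- `s Δ(q) = u w³`. -/
theorem s3_mul_DeltaS : s3 * DeltaS = u3 * w3 ^ 3 := by
  apply mul_left_cancel_ofNat (n := 122880000)
  have e : (122880000 : PowerSeries ℤ) * (u3 * w3 ^ 3) =
      240 * u3 * ((80 * w3) * ((80 * w3) * (80 * w3))) := by ring
  have e' : (122880000 : PowerSeries ℤ) * (s3 * DeltaS) = 12288000 * ((10 * s3) * DeltaS) := by
    ring
  refine Rep.eq_of_coeff (r := 3) (k := 16) ?_ ?_ fun n hn => ?_
  · rw [e']
    exact ((rep_s3.mul (rep_DeltaS 3)).ofNat_mul 12288000).cast (by norm_num)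
  · rw [e]
    exact (rep_u3.mul (rep_w3.mul (rep_w3.mul rep_w3))).cast (by norm_num)
  · rw [index_Gamma0_three] at hn
    have hn' : n ≤ 5 := le_trans hn (by decide)
    have e2 : (122880000 : PowerSeries ℤ) * (s3 * DeltaS) - 122880000 * (u3 * w3 ^ 3) =
        C 122880000 * (s3 * DeltaS - u3 * (w3 * w3 * w3)) := by
      rw [map_ofNat]; ring
    rw [e2, coeff_C_mul, tr_A3.coeff_eq_zero hn', mul_zero]

/-- `s Δ(q³) = u³ w`. -/
theorem s3_mul_V3_DeltaS : s3 * V3 DeltaS = u3 ^ 3 * w3 := by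
  apply mul_left_cancel_ofNat (n := 1105920000)
  have e : (1105920000 : PowerSeries ℤ) * (u3 ^ 3 * w3) =
      240 * u3 * ((240 * u3) * ((240 * u3) * (80 * w3))) := by ring
  have e' : (1105920000 : PowerSeries ℤ) * (s3 * V3 DeltaS) =
      110592000 * ((10 * s3) * V3 DeltaS) := by
    ring
  refine Rep.eq_of_coeff (r := 3) (k := 16) ?_ ?_ fun n hn => ?_
  · rw [e']
    exact ((rep_s3.mul (rep_expand_DeltaS 3)).ofNat_mul 110592000).cast (by norm_num)
  · rw [e]
    exact (rep_u3.mul (rep_u3.mul (rep_u3.mul rep_w3))).cast (by norm_num)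
  · rw [index_Gamma0_three] at hn
    have hn' : n ≤ 5 := le_trans hn (by decide)
    have e2 : (1105920000 : PowerSeries ℤ) * (s3 * V3 DeltaS) - 1105920000 * (u3 ^ 3 * w3) =
        C 1105920000 * (s3 * V3 DeltaS - u3 * u3 * u3 * w3) := by
      rw [map_ofNat]; ring
    rw [e2, coeff_C_mul, tr_B3.coeff_eq_zero hn', mul_zero]

end Fermat.Agent.Lib.Hauptmodul
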