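import Mathlib
import Fermat.Prelude.Def_ModularCurve_X0ModL
import Fermat.Agent.Lib.Hauptmodul.Identities

/-!
# The Hauptmoduln of `X₀(2)` and `X₀(3)` as integral Laurent series

`h2 = Δ(q)/Δ(q²) = q⁻¹ - 24 + ⋯` and `h3 = (Δ(q)/Δ(q³))^{1/2} = q⁻¹ - 12 + ⋯` in `ℤ((q))`, with
* `j * h2 ^ 2 = (h2 + 256) ^ 3`, `j(q²) * h2 = (h2 + 16) ^ 3`,
* `j * h3 ^ 3 = (h3 + 27) * (h3 + 243) ^ 3`, `j(q³) * h3 = (h3 + 27) * (h3 + 3) ^ 3`,
and the same identities over every commutative ring.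
-/

set_option autoImplicit false

namespace Fermat.Agent.Lib.Hauptmodul

open PowerSeries ModularCurve

/-- the embedding `ℤ⟦q⟧ → ℤ((q))`. -/
noncomputable abbrev LS : PowerSeries ℤ →+* LaurentSeries ℤ := HahnSeries.ofPowerSeries ℤ ℤ

theorem LS_injective : Function.Injective LS := HahnSeries.ofPowerSeries_injective

/-- `u / q`. -/
noncomputable def shiftS (u : PowerSeries ℤ) : PowerSeries ℤ :=
  PowerSeries.mk fun n => coeff (n + 1) u

theorem X_mul_shiftS {u : PowerSeries ℤ} (h0 : coeff 0 u = 0) : X * shiftS u = u := by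
  ext n
  cases n with
  | zero => simp [h0]
  | succ n => rw [coeff_succ_X_mul, shiftS, coeff_mk]

theorem constantCoeff_shiftS (u : PowerSeries ℤ) : constantCoeff (shiftS u) = coeff 1 u := by
  rw [← coeff_zero_eq_constantCoeff_apply, shiftS, coeff_mk]

/-- the quotient `w / u` of integral power series, for `u = q + ⋯`. -/
noncomputable def quotS (w u : PowerSeries ℤ) : LaurentSeries ℤ :=
  HahnSeries.single (-1 : ℤ) 1 * LS (w * (shiftS u).invOfUnit 1)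

theorem single_neg_one_mul_LS_X : HahnSeries.single (-1 : ℤ) (1 : ℤ) * LS X = 1 := by
  rw [HahnSeries.ofPowerSeries_X, HahnSeries.single_mul_single]
  simp

theorem quotS_mul {w u : PowerSeries ℤ} (h0 : coeff 0 u = 0) (h1 : coeff 1 u = 1) :
    quotS w u * LS u = LS w := by
  have hu : shiftS u * (shiftS u).invOfUnit 1 = 1 :=
    PowerSeries.mul_invOfUnit _ _ (by rw [constantCoeff_shiftS, h1]; rfl)
  calc quotS w u * LS u
      = quotS w u * LS (X * shiftS u) := by rw [X_mul_shiftS h0]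
    _ = (HahnSeries.single (-1 : ℤ) (1 : ℤ) * LS X) * LS (w * (shiftS u * (shiftS u).invOfUnit 1)) := by
        rw [quotS]; simp only [map_mul]; ring
    _ = LS w := by rw [single_neg_one_mul_LS_X, hu, mul_one, one_mul]

theorem quotS_coeff_neg_one (w u : PowerSeries ℤ) :
    (quotS w u).coeff (-1) = coeff 0 w := by
  have hu : constantCoeff ((shiftS u).invOfUnit 1) = 1 := by
    rw [PowerSeries.constantCoeff_invOfUnit]; rfl
  rw [quotS, HahnSeries.coeff_single_mul, one_mul, sub_neg_eq_add, neg_add_cancel,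
    show (0 : ℤ) = ((0 : ℕ) : ℤ) from rfl, HahnSeries.ofPowerSeries_apply_coeff,
    coeff_zero_eq_constantCoeff_apply, map_mul, hu, mul_one, coeff_zero_eq_constantCoeff_apply]

theorem quotS_coeff_of_lt (w u : PowerSeries ℤ) {k : ℤ} (hk : k < -1) :
    (quotS w u).coeff k = 0 := by
  rw [quotS, HahnSeries.coeff_single_mul, one_mul]
  exact ofPowerSeries_coeff_of_neg _ (by omega)

theorem qExpand_LS (r : ℕ) [NeZero r] (f : PowerSeries ℤ) :
    qExpand ℤ r (LS f) = LS (expand r (NeZero.ne r) f) := by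
  ext k
  by_cases hk : (r : ℤ) ∣ k
  · obtain ⟨m, rfl⟩ := hk
    rw [qExpand_coeff_mul]
    rcases le_or_gt 0 m with hm | hm
    · lift m to ℕ using hm
      rw [HahnSeries.ofPowerSeries_apply_coeff, show (r : ℤ) * (m : ℤ) = ((r * m : ℕ) : ℤ) by
        push_cast; ring, HahnSeries.ofPowerSeries_apply_coeff, coeff_expand_mul]
    · have hr : (0 : ℤ) < r := by exact_mod_cast Nat.pos_of_ne_zero (NeZero.ne r)
      rw [ofPowerSeries_coeff_of_neg _ hm, ofPowerSeries_coeff_of_neg _ (by nlinarith)]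
  · rw [qExpand_coeff_of_not_dvd r _ hk]
    rcases le_or_gt 0 k with hk0 | hk0
    · lift k to ℕ using hk0
      rw [HahnSeries.ofPowerSeries_apply_coeff, coeff_expand_of_not_dvd]
      exact fun h => hk (by exact_mod_cast h)
    · rw [ofPowerSeries_coeff_of_neg _ hk0]

theorem jqModC_mul_DeltaS : jqModC ℤ * LS DeltaS = LS eisenstein4 ^ 3 := by
  have h1 : jNum.map (Int.castRingHom ℤ) = jNum := by
    ext n; simp
  calc jqModC ℤ * LS DeltaS
      = (HahnSeries.single (-1 : ℤ) (1 : ℤ) * LS X) *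
          LS (eisenstein4 ^ 3 * (dedekindEtaUnit * dedekindEtaUnitInv)) := by
        rw [jqModC, h1, jNum, DeltaS]; simp only [map_mul, map_pow]; ring
    _ = LS eisenstein4 ^ 3 := by
        rw [single_neg_one_mul_LS_X, dedekindEtaUnit_mul_inv, mul_one, one_mul, map_pow]

theorem qExpand_jqModC_mul (r : ℕ) [NeZero r] :
    qExpand ℤ r (jqModC ℤ) * LS (expand r (NeZero.ne r) DeltaS) =
      LS (expand r (NeZero.ne r) eisenstein4) ^ 3 := by
  rw [← qExpand_LS, ← qExpand_LS, ← map_mul, jqModC_mul_DeltaS, map_pow]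

theorem LS_ne_zero {f : PowerSeries ℤ} (hf : f ≠ 0) : LS f ≠ 0 := fun h =>
  hf (LS_injective (by rw [h, map_zero]))

theorem u2_ne_zero : u2 ≠ 0 := fun h => by
  have := tr_u2.h1
  rw [h] at this
  simp at this

theorem u3_ne_zero : u3 ≠ 0 := fun h => by
  have := tr_u3.h1
  rw [h] at this
  simp at this

theorem DeltaS_ne_zero : DeltaS ≠ 0 := fun h => by
  have := tr_DeltaS.h1
  rw [h] at this
  simp at this

theorem V2_DeltaS_ne_zero : V2 DeltaS ≠ 0 := fun h => by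
  have := tr_DeltaS.expand2.h2
  rw [h] at this
  simp at this

theorem V3_DeltaS_ne_zero : V3 DeltaS ≠ 0 := fun h => by
  have := tr_DeltaS.expand3.h3
  rw [h] at this
  simp at this

/-- The Hauptmodul `Δ(q)/Δ(q²) = q⁻¹ - 24 + 276 q - ⋯` of `X₀(2)`. -/
noncomputable def h2 : LaurentSeries ℤ := quotS w2 u2

/-- The Hauptmodul `(η(q)/η(q³))¹² = q⁻¹ - 12 + 54 q - ⋯` of `X₀(3)`. -/
noncomputable def h3 : LaurentSeries ℤ := quotS w3 u3

theorem h2_mul_u2 : h2 * LS u2 = LS w2 := quotS_mul tr_u2.h0 tr_u2.h1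
theorem h3_mul_u3 : h3 * LS u3 = LS w3 := quotS_mul tr_u3.h0 tr_u3.h1

theorem h2_coeff_neg_one : h2.coeff (-1) = 1 := by
  rw [h2, quotS_coeff_neg_one, tr_w2.h0]

theorem h3_coeff_neg_one : h3.coeff (-1) = 1 := by
  rw [h3, quotS_coeff_neg_one, tr_w3.h0]

theorem h2_coeff_of_lt {k : ℤ} (hk : k < -1) : h2.coeff k = 0 := quotS_coeff_of_lt _ _ hk
theorem h3_coeff_of_lt {k : ℤ} (hk : k < -1) : h3.coeff k = 0 := quotS_coeff_of_lt _ _ hk

/-- `h2 = Δ(q)/Δ(q²)`. -/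
theorem h2_mul_V2_DeltaS : h2 * LS (V2 DeltaS) = LS DeltaS := by
  rw [V2_DeltaS_eq, DeltaS_eq_two]
  simp only [map_mul, map_pow]
  rw [← h2_mul_u2]; ring

/-- `h3² = Δ(q)/Δ(q³)`. -/
theorem h3_sq_mul_V3_DeltaS : h3 ^ 2 * LS (V3 DeltaS) = LS DeltaS := by
  have hs : LS s3 ≠ 0 := LS_ne_zero fun h => by
    have := tr_s3.h0
    rw [h] at this
    simp at this
  apply mul_left_cancel₀ hs
  calc LS s3 * (h3 ^ 2 * LS (V3 DeltaS)) = h3 ^ 2 * LS (s3 * V3 DeltaS) := by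
        rw [map_mul]; ring
    _ = LS u3 * (h3 * LS u3) ^ 2 * LS w3 := by
        rw [s3_mul_V3_DeltaS]; simp only [map_mul, map_pow]; ring
    _ = LS (u3 * w3 ^ 3) := by rw [h3_mul_u3]; simp only [map_mul, map_pow]; ring
    _ = LS s3 * LS DeltaS := by rw [← s3_mul_DeltaS, map_mul]

/-- `j = (h + 256)³ / h²`. -/
theorem jq_mul_h2 : jqModC ℤ * h2 ^ 2 = (h2 + 256) ^ 3 := by
  have hne : LS u2 ^ 3 * LS DeltaS ≠ 0 :=
    mul_ne_zero (pow_ne_zero _ (LS_ne_zero u2_ne_zero)) (LS_ne_zero DeltaS_ne_zero)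
  have e4 : LS w2 + 256 * LS u2 = LS eisenstein4 := by
    rw [← w2_add_256, map_add, map_mul, map_ofNat]
  have e3 : LS DeltaS = LS u2 * LS w2 ^ 2 := by
    conv_lhs => rw [DeltaS_eq_two]
    rw [map_mul, map_pow]
  apply mul_right_cancel₀ hne
  calc jqModC ℤ * h2 ^ 2 * (LS u2 ^ 3 * LS DeltaS)
      = (jqModC ℤ * LS DeltaS) * (h2 * LS u2) ^ 2 * LS u2 := by ring
    _ = LS eisenstein4 ^ 3 * (LS u2 * LS w2 ^ 2) := by
        rw [jqModC_mul_DeltaS, h2_mul_u2]; ring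
    _ = (h2 * LS u2 + 256 * LS u2) ^ 3 * LS DeltaS := by rw [h2_mul_u2, e4, ← e3]
    _ = (h2 + 256) ^ 3 * (LS u2 ^ 3 * LS DeltaS) := by ring

/-- `j(q²) = (h + 16)³ / h`. -/
theorem jq2_mul_h2 : qExpand ℤ 2 (jqModC ℤ) * h2 = (h2 + 16) ^ 3 := by
  have hne : LS u2 ^ 3 * LS (V2 DeltaS) ≠ 0 :=
    mul_ne_zero (pow_ne_zero _ (LS_ne_zero u2_ne_zero)) (LS_ne_zero V2_DeltaS_ne_zero)
  have e4 : LS w2 + 16 * LS u2 = LS (V2 eisenstein4) := by
    rw [← w2_add_16, map_add, map_mul, map_ofNat]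
  have e3 : LS (V2 DeltaS) = LS u2 ^ 2 * LS w2 := by
    rw [V2_DeltaS_eq, map_mul, map_pow]
  have e2 : qExpand ℤ 2 (jqModC ℤ) * LS (V2 DeltaS) = LS (V2 eisenstein4) ^ 3 :=
    qExpand_jqModC_mul 2
  apply mul_right_cancel₀ hne
  calc qExpand ℤ 2 (jqModC ℤ) * h2 * (LS u2 ^ 3 * LS (V2 DeltaS))
      = (qExpand ℤ 2 (jqModC ℤ) * LS (V2 DeltaS)) * (h2 * LS u2) * LS u2 ^ 2 := by ring
    _ = LS (V2 eisenstein4) ^ 3 * (LS u2 ^ 2 * LS w2) := by
        rw [e2, h2_mul_u2]; ring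
    _ = (h2 * LS u2 + 16 * LS u2) ^ 3 * LS (V2 DeltaS) := by rw [h2_mul_u2, e4, ← e3]
    _ = (h2 + 16) ^ 3 * (LS u2 ^ 3 * LS (V2 DeltaS)) := by ring

/-- `j = (h + 27)(h + 243)³ / h³`. -/
theorem jq_mul_h3 : jqModC ℤ * h3 ^ 3 = (h3 + 27) * (h3 + 243) ^ 3 := by
  have hne : LS u3 ^ 4 * LS DeltaS ≠ 0 :=
    mul_ne_zero (pow_ne_zero _ (LS_ne_zero u3_ne_zero)) (LS_ne_zero DeltaS_ne_zero)
  have e4 : LS w3 + 243 * LS u3 = LS eisenstein4 := by
    rw [← w3_add_243, map_add, map_mul, map_ofNat]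
  have e5 : LS w3 + 27 * LS u3 = LS s3 := by
    rw [← w3_add_27, map_add, map_mul, map_ofNat]
  have e3 : LS s3 * LS DeltaS = LS u3 * LS w3 ^ 3 := by
    rw [← map_mul, s3_mul_DeltaS, map_mul, map_pow]
  apply mul_right_cancel₀ hne
  calc jqModC ℤ * h3 ^ 3 * (LS u3 ^ 4 * LS DeltaS)
      = (jqModC ℤ * LS DeltaS) * (h3 * LS u3) ^ 3 * LS u3 := by ring
    _ = LS eisenstein4 ^ 3 * (LS u3 * LS w3 ^ 3) := by
        rw [jqModC_mul_DeltaS, h3_mul_u3]; ring
    _ = (h3 * LS u3 + 27 * LS u3) * (h3 * LS u3 + 243 * LS u3) ^ 3 * LS DeltaS := by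
        rw [h3_mul_u3, e4, e5, ← e3]; ring
    _ = (h3 + 27) * (h3 + 243) ^ 3 * (LS u3 ^ 4 * LS DeltaS) := by ring

/-- `j(q³) = (h + 27)(h + 3)³ / h`. -/
theorem jq3_mul_h3 : qExpand ℤ 3 (jqModC ℤ) * h3 = (h3 + 27) * (h3 + 3) ^ 3 := by
  have hne : LS u3 ^ 4 * LS (V3 DeltaS) ≠ 0 :=
    mul_ne_zero (pow_ne_zero _ (LS_ne_zero u3_ne_zero)) (LS_ne_zero V3_DeltaS_ne_zero)
  have e4 : LS w3 + 3 * LS u3 = LS (V3 eisenstein4) := by
    rw [← w3_add_3, map_add, map_mul, map_ofNat]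
  have e5 : LS w3 + 27 * LS u3 = LS s3 := by
    rw [← w3_add_27, map_add, map_mul, map_ofNat]
  have e3 : LS s3 * LS (V3 DeltaS) = LS u3 ^ 3 * LS w3 := by
    rw [← map_mul, s3_mul_V3_DeltaS, map_mul, map_pow]
  have e2 : qExpand ℤ 3 (jqModC ℤ) * LS (V3 DeltaS) = LS (V3 eisenstein4) ^ 3 :=
    qExpand_jqModC_mul 3
  apply mul_right_cancel₀ hne
  calc qExpand ℤ 3 (jqModC ℤ) * h3 * (LS u3 ^ 4 * LS (V3 DeltaS))
      = (qExpand ℤ 3 (jqModC ℤ) * LS (V3 DeltaS)) * (h3 * LS u3) * LS u3 ^ 3 := by ring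
    _ = LS (V3 eisenstein4) ^ 3 * (LS u3 ^ 3 * LS w3) := by
        rw [e2, h3_mul_u3]; ring
    _ = (h3 * LS u3 + 27 * LS u3) * (h3 * LS u3 + 3 * LS u3) ^ 3 * LS (V3 DeltaS) := by
        rw [h3_mul_u3, e4, e5, ← e3]; ring
    _ = (h3 + 27) * (h3 + 3) ^ 3 * (LS u3 ^ 4 * LS (V3 DeltaS)) := by ring

/-! ### arbitrary coefficient rings -/

section BaseChange

variable (R : Type*) [CommRing R]

/-- the Hauptmodul of `X₀(2)` with coefficients in `R`. -/
noncomputable def h2R : LaurentSeries R := coeffMap (Int.castRingHom R) h2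

/-- the Hauptmodul of `X₀(3)` with coefficients in `R`. -/
noncomputable def h3R : LaurentSeries R := coeffMap (Int.castRingHom R) h3

theorem h2R_coeff (k : ℤ) : (h2R R).coeff k = ((h2.coeff k : ℤ) : R) := by
  rw [h2R, coeffMap_coeff]; rfl

theorem h3R_coeff (k : ℤ) : (h3R R).coeff k = ((h3.coeff k : ℤ) : R) := by
  rw [h3R, coeffMap_coeff]; rfl

theorem h2R_coeff_neg_one : (h2R R).coeff (-1) = 1 := by
  rw [h2R_coeff, h2_coeff_neg_one, Int.cast_one]

theorem h3R_coeff_neg_one : (h3R R).coeff (-1) = 1 := by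
  rw [h3R_coeff, h3_coeff_neg_one, Int.cast_one]

theorem h2R_coeff_of_lt {k : ℤ} (hk : k < -1) : (h2R R).coeff k = 0 := by
  rw [h2R_coeff, h2_coeff_of_lt hk, Int.cast_zero]

theorem h3R_coeff_of_lt {k : ℤ} (hk : k < -1) : (h3R R).coeff k = 0 := by
  rw [h3R_coeff, h3_coeff_of_lt hk, Int.cast_zero]

variable {R} in
theorem coeffMap_h2R {S : Type*} [CommRing S] (f : R →+* S) : coeffMap f (h2R R) = h2R S := by
  rw [h2R, coeffMap_coeffMap, RingHom.ext_int (f.comp (Int.castRingHom R)) (Int.castRingHom S),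
    h2R]

variable {R} in
theorem coeffMap_h3R {S : Type*} [CommRing S] (f : R →+* S) : coeffMap f (h3R R) = h3R S := by
  rw [h3R, coeffMap_coeffMap, RingHom.ext_int (f.comp (Int.castRingHom R)) (Int.castRingHom S),
    h3R]

theorem jqModC_mul_h2R : jqModC R * h2R R ^ 2 = (h2R R + 256) ^ 3 := by
  have := congrArg (coeffMap (Int.castRingHom R)) jq_mul_h2
  simp only [map_mul, map_pow, map_add, map_ofNat, coeffMap_jqModC] at this
  exact this

theorem jqNModC_two_mul_h2R : jqNModC R 2 * h2R R = (h2R R + 16) ^ 3 := by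
  have := congrArg (coeffMap (Int.castRingHom R)) jq2_mul_h2
  simp only [map_mul, map_pow, map_add, map_ofNat, coeffMap_qExpand, coeffMap_jqModC] at this
  exact this

theorem jqModC_mul_h3R : jqModC R * h3R R ^ 3 = (h3R R + 27) * (h3R R + 243) ^ 3 := by
  have := congrArg (coeffMap (Int.castRingHom R)) jq_mul_h3
  simp only [map_mul, map_pow, map_add, map_ofNat, coeffMap_jqModC] at this
  exact this

theorem jqNModC_three_mul_h3R : jqNModC R 3 * h3R R = (h3R R + 27) * (h3R R + 3) ^ 3 := by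
  have := congrArg (coeffMap (Int.castRingHom R)) jq3_mul_h3
  simp only [map_mul, map_pow, map_add, map_ofNat, coeffMap_qExpand, coeffMap_jqModC] at this
  exact this

end BaseChange

end Fermat.Agent.Lib.Hauptmodul
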