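import Mathlib
import Fermat.Prelude.Def_ModularCurve_X0ModL
import Fermat.Agent.S28.NP
import Fermat.Agent.Lib.Hauptmodul.Main

/-!
# The Hauptmoduln lie in the function fields

For every field `K`: `h2R K ∈ K(j, j(q²))`, `h3R K ∈ K(j, j(q³))` (explicit rational expressions),
`K(h_r) = FF K r`, and `h_r` is transcendental over `K`.
-/

set_option autoImplicit false

namespace Fermat.Agent.Lib.Hauptmodul

open ModularCurve IntermediateField

/-! ### pure algebra: the elimination -/

theorem elim2 {F : Type*} [Field F] (h J J2 : F) (hh : h ≠ 0)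
    (e1 : J * h ^ 2 = (h + 256) ^ 3) (e2 : J2 * h = (h + 16) ^ 3) :
    h * (J * J2 - 720 * J - 720 * J2 - 16250625) =
      J2 ^ 2 + 195120 * J2 + 4095 * J + 660960000 := by
  have hJ : J = (h + 256) ^ 3 / h ^ 2 := by rw [eq_div_iff (pow_ne_zero 2 hh)]; exact e1
  have hJ2 : J2 = (h + 16) ^ 3 / h := by rw [eq_div_iff hh]; exact e2
  rw [hJ, hJ2]
  field_simp
  ring

theorem elim3 {F : Type*} [Field F] (h J J3 : F) (hh : h ≠ 0)
    (e1 : J * h ^ 3 = (h + 27) * (h + 243) ^ 3) (e2 : J3 * h = (h + 27) * (h + 3) ^ 3) :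
    h * (J3 ^ 3 - 103456080 * J3 ^ 2 + 276373831680000 * J3 - 3623878656000000000
        + 14229831680000 * J + 18821147040 * (J * J3) + 196830 * (J * J3 ^ 2) - 524880 * J ^ 2
        + 729 * (J ^ 2 * J3)) =
      J * J3 ^ 3 - 756 * J3 ^ 3 + 19129644 * (J * J3 ^ 2) + 23150726640 * J3 ^ 2
        + 76509442080 * (J * J3) - 14204206448640000 * J3 + 531440 * J ^ 2
        - 48430448640000 * J + 97844723712000000000 := by
  have hJ : J = (h + 27) * (h + 243) ^ 3 / h ^ 3 := by
    rw [eq_div_iff (pow_ne_zero 3 hh)]; exact e1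
  have hJ3 : J3 = (h + 27) * (h + 3) ^ 3 / h := by rw [eq_div_iff hh]; exact e2
  rw [hJ, hJ3]
  field_simp
  ring

/-! ### pole orders -/

section Pole

variable {K : Type*} [CommRing K]

/-- `x` has a pole of order at most `n` at `q = 0`. -/
def PoleLE (x : LaurentSeries K) (n : ℤ) : Prop := ∀ k : ℤ, k < -n → x.coeff k = 0

namespace PoleLE

variable {x y : LaurentSeries K} {m n : ℤ}

theorem mono (hx : PoleLE x m) (h : m ≤ n) : PoleLE x n := fun k hk => hx k (by omega)

theorem add (hx : PoleLE x n) (hy : PoleLE y n) : PoleLE (x + y) n := fun k hk => by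
  rw [HahnSeries.coeff_add, hx k hk, hy k hk, add_zero]

theorem sub (hx : PoleLE x n) (hy : PoleLE y n) : PoleLE (x - y) n := fun k hk => by
  rw [HahnSeries.coeff_sub, hx k hk, hy k hk, sub_zero]

theorem mul (hx : PoleLE x m) (hy : PoleLE y n) : PoleLE (x * y) (m + n) := fun k hk => by
  rw [HahnSeries.coeff_mul]
  refine Finset.sum_eq_zero ?_
  rintro ⟨a, b⟩ hab
  rw [Finset.mem_antidiagonal] at hab
  obtain ⟨-, -, hab⟩ := hab
  simp only at hab ⊢
  by_cases ha : a < -m
  · rw [hx a ha, zero_mul]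
  · rw [hy b (by omega), mul_zero]

theorem one : PoleLE (1 : LaurentSeries K) 0 := fun k hk => by
  rw [HahnSeries.coeff_one, if_neg (by omega)]

theorem pow (hx : PoleLE x m) (e : ℕ) : PoleLE (x ^ e) (e * m) := by
  induction e with
  | zero => simpa using one
  | succ e ih =>
    rw [pow_succ]
    exact (ih.mul hx).mono (by push_cast; linarith)

theorem ofNat (c : ℕ) [c.AtLeastTwo] : PoleLE (OfNat.ofNat c : LaurentSeries K) 0 := fun k hk => by
  have : (OfNat.ofNat c : LaurentSeries K) = HahnSeries.C (OfNat.ofNat c : K) :=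
    (map_ofNat (HahnSeries.C (Γ := ℤ) (R := K)) c).symm
  rw [this, HahnSeries.C_apply, HahnSeries.coeff_single_of_ne (by omega)]

end PoleLE

theorem poleLE_jqModC : PoleLE (jqModC K) 1 := fun _ hk => coeff_jqModC_of_lt K hk

theorem poleLE_qExpand (r : ℕ) [NeZero r] {x : LaurentSeries K} {n : ℤ} (hx : PoleLE x n) :
    PoleLE (qExpand K r x) (r * n) := fun k hk => by
  by_cases hd : (r : ℤ) ∣ k
  · obtain ⟨m, rfl⟩ := hd
    rw [qExpand_coeff_mul]
    have hr : (0 : ℤ) < r := by exact_mod_cast Nat.pos_of_ne_zero (NeZero.ne r)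
    exact hx m (by nlinarith)
  · exact qExpand_coeff_of_not_dvd r _ hd

end Pole

/-! ### membership -/

section Field

variable (K : Type*) [Field K]

theorem h2R_ne_zero : h2R K ≠ 0 := fun h => by
  have := h2R_coeff_neg_one K
  rw [h] at this
  simp at this

theorem h3R_ne_zero : h3R K ≠ 0 := fun h => by
  have := h3R_coeff_neg_one K
  rw [h] at this
  simp at this

theorem poleLE_jqNModC (r : ℕ) [NeZero r] : PoleLE (jqNModC K r) r := by
  have := poleLE_qExpand r (poleLE_jqModC (K := K))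
  rwa [mul_one] at this

theorem coeff_jqNModC_pow (r : ℕ) [NeZero r] (e : ℕ) :
    (jqNModC K r ^ e).coeff (-((r * e : ℕ) : ℤ)) = 1 := by
  rw [jqNModC, ← map_pow, show (-((r * e : ℕ) : ℤ)) = (r : ℤ) * (-(e : ℤ)) by push_cast; ring,
    qExpand_coeff_mul, coeff_jqModC_pow_self]

theorem num2_ne_zero :
    jqNModC K 2 ^ 2 + 195120 * jqNModC K 2 + 4095 * jqModC K + 660960000 ≠ 0 := by
  intro h
  have hj := poleLE_jqModC (K := K)
  have hj2 := poleLE_jqNModC K 2
  have hR : PoleLE (195120 * jqNModC K 2 + 4095 * jqModC K + 660960000) 3 :=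
    ((((PoleLE.ofNat 195120).mul hj2).mono (by norm_num)).add
      (((PoleLE.ofNat 4095).mul hj).mono (by norm_num))).add
      ((PoleLE.ofNat 660960000).mono (by norm_num))
  have h1 := coeff_jqNModC_pow K 2 2
  have h2 : jqNModC K 2 ^ 2 + 195120 * jqNModC K 2 + 4095 * jqModC K + 660960000 =
      jqNModC K 2 ^ 2 + (195120 * jqNModC K 2 + 4095 * jqModC K + 660960000) := by ring
  rw [h2] at h
  have h3 := congrArg (fun x : LaurentSeries K => x.coeff (-((2 * 2 : ℕ) : ℤ))) h
  beta_reduce at h3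
  rw [HahnSeries.coeff_add, h1, HahnSeries.coeff_zero, hR _ (by norm_num), add_zero] at h3
  exact one_ne_zero h3

theorem den2_ne_zero :
    jqModC K * jqNModC K 2 - 720 * jqModC K - 720 * jqNModC K 2 - 16250625 ≠ 0 := by
  intro h
  have := elim2 (h2R K) (jqModC K) (jqNModC K 2) (h2R_ne_zero K) (jqModC_mul_h2R K)
    (jqNModC_two_mul_h2R K)
  rw [h, mul_zero] at this
  exact num2_ne_zero K this.symm

/-- `h₂` as an explicit rational function of `j` and `j(q²)`. -/
theorem h2R_eq : h2R K =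
    (jqNModC K 2 ^ 2 + 195120 * jqNModC K 2 + 4095 * jqModC K + 660960000) /
      (jqModC K * jqNModC K 2 - 720 * jqModC K - 720 * jqNModC K 2 - 16250625) := by
  rw [eq_div_iff (den2_ne_zero K)]
  exact elim2 (h2R K) (jqModC K) (jqNModC K 2) (h2R_ne_zero K) (jqModC_mul_h2R K)
    (jqNModC_two_mul_h2R K)

theorem den3_ne_zero :
    jqNModC K 3 ^ 3 - 103456080 * jqNModC K 3 ^ 2 + 276373831680000 * jqNModC K 3
        - 3623878656000000000
        + 14229831680000 * jqModC K + 18821147040 * (jqModC K * jqNModC K 3)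
        + 196830 * (jqModC K * jqNModC K 3 ^ 2) - 524880 * jqModC K ^ 2
        + 729 * (jqModC K ^ 2 * jqNModC K 3) ≠ 0 := by
  intro h
  have hj := poleLE_jqModC (K := K)
  have hj3 := poleLE_jqNModC K 3
  have hR : PoleLE (276373831680000 * jqNModC K 3 - 103456080 * jqNModC K 3 ^ 2
        - 3623878656000000000
        + 14229831680000 * jqModC K + 18821147040 * (jqModC K * jqNModC K 3)
        + 196830 * (jqModC K * jqNModC K 3 ^ 2) - 524880 * jqModC K ^ 2
        + 729 * (jqModC K ^ 2 * jqNModC K 3)) 8 := by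
    have t1 : PoleLE (276373831680000 * jqNModC K 3) 8 :=
      ((PoleLE.ofNat 276373831680000).mul hj3).mono (by norm_num)
    have t2 : PoleLE (103456080 * jqNModC K 3 ^ 2) 8 :=
      ((PoleLE.ofNat 103456080).mul (hj3.pow 2)).mono (by norm_num)
    have t3 : PoleLE (3623878656000000000 : LaurentSeries K) 8 :=
      (PoleLE.ofNat 3623878656000000000).mono (by norm_num)
    have t4 : PoleLE (14229831680000 * jqModC K) 8 :=
      ((PoleLE.ofNat 14229831680000).mul hj).mono (by norm_num)
    have t5 : PoleLE (18821147040 * (jqModC K * jqNModC K 3)) 8 :=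
      ((PoleLE.ofNat 18821147040).mul (hj.mul hj3)).mono (by norm_num)
    have t6 : PoleLE (196830 * (jqModC K * jqNModC K 3 ^ 2)) 8 :=
      ((PoleLE.ofNat 196830).mul (hj.mul (hj3.pow 2))).mono (by norm_num)
    have t7 : PoleLE (524880 * jqModC K ^ 2) 8 :=
      ((PoleLE.ofNat 524880).mul (hj.pow 2)).mono (by norm_num)
    have t8 : PoleLE (729 * (jqModC K ^ 2 * jqNModC K 3)) 8 :=
      ((PoleLE.ofNat 729).mul ((hj.pow 2).mul hj3)).mono (by norm_num)
    exact ((((((t1.sub t2).sub t3).add t4).add t5).add t6).sub t7).add t8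
  have h1 := coeff_jqNModC_pow K 3 3
  have h2 : jqNModC K 3 ^ 3 - 103456080 * jqNModC K 3 ^ 2 + 276373831680000 * jqNModC K 3
        - 3623878656000000000
        + 14229831680000 * jqModC K + 18821147040 * (jqModC K * jqNModC K 3)
        + 196830 * (jqModC K * jqNModC K 3 ^ 2) - 524880 * jqModC K ^ 2
        + 729 * (jqModC K ^ 2 * jqNModC K 3) =
      jqNModC K 3 ^ 3 + (276373831680000 * jqNModC K 3 - 103456080 * jqNModC K 3 ^ 2
        - 3623878656000000000
        + 14229831680000 * jqModC K + 18821147040 * (jqModC K * jqNModC K 3)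
        + 196830 * (jqModC K * jqNModC K 3 ^ 2) - 524880 * jqModC K ^ 2
        + 729 * (jqModC K ^ 2 * jqNModC K 3)) := by ring
  rw [h2] at h
  have h3 := congrArg (fun x : LaurentSeries K => x.coeff (-((3 * 3 : ℕ) : ℤ))) h
  beta_reduce at h3
  rw [HahnSeries.coeff_add, h1, HahnSeries.coeff_zero, hR _ (by norm_num), add_zero] at h3
  exact one_ne_zero h3

/-- `h₃` as an explicit rational function of `j` and `j(q³)`. -/
theorem h3R_eq : h3R K =
    (jqModC K * jqNModC K 3 ^ 3 - 756 * jqNModC K 3 ^ 3 + 19129644 * (jqModC K * jqNModC K 3 ^ 2)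
        + 23150726640 * jqNModC K 3 ^ 2
        + 76509442080 * (jqModC K * jqNModC K 3) - 14204206448640000 * jqNModC K 3
        + 531440 * jqModC K ^ 2
        - 48430448640000 * jqModC K + 97844723712000000000) /
      (jqNModC K 3 ^ 3 - 103456080 * jqNModC K 3 ^ 2 + 276373831680000 * jqNModC K 3
        - 3623878656000000000
        + 14229831680000 * jqModC K + 18821147040 * (jqModC K * jqNModC K 3)
        + 196830 * (jqModC K * jqNModC K 3 ^ 2) - 524880 * jqModC K ^ 2
        + 729 * (jqModC K ^ 2 * jqNModC K 3)) := by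
  rw [eq_div_iff (den3_ne_zero K)]
  exact elim3 (h3R K) (jqModC K) (jqNModC K 3) (h3R_ne_zero K) (jqModC_mul_h3R K)
    (jqNModC_three_mul_h3R K)

theorem ofNat_mem_full (N : ℕ) (c : ℕ) [c.AtLeastTwo] :
    (OfNat.ofNat c : LaurentSeries K) ∈ modularFunctionFieldFullC K N := by
  have : (OfNat.ofNat c : LaurentSeries K) = algebraMap K (LaurentSeries K) (OfNat.ofNat c) :=
    (map_ofNat _ c).symm
  rw [this]
  exact (modularFunctionFieldFullC K N).algebraMap_mem _

/-- **Membership**: `h₂ ∈ K(X₀(N))` for `2 ∣ N`, over every field. -/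
theorem h2R_mem_full {N : ℕ} (hN : 2 ∣ N) : h2R K ∈ modularFunctionFieldFullC K N := by
  have hj : jqModC K ∈ modularFunctionFieldFullC K N := jqModC_mem_full K N
  have hj2 : jqNModC K 2 ∈ modularFunctionFieldFullC K N := jqModCd_mem_full K N hN
  have hc := fun (c : ℕ) [c.AtLeastTwo] => ofNat_mem_full K N c
  rw [h2R_eq]
  exact div_mem (add_mem (add_mem (add_mem (pow_mem hj2 2) (mul_mem (hc _) hj2))
    (mul_mem (hc _) hj)) (hc _))
    (sub_mem (sub_mem (sub_mem (mul_mem hj hj2) (mul_mem (hc _) hj)) (mul_mem (hc _) hj2)) (hc _))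

/-- **Membership**: `h₃ ∈ K(X₀(N))` for `3 ∣ N`, over every field. -/
theorem h3R_mem_full {N : ℕ} (hN : 3 ∣ N) : h3R K ∈ modularFunctionFieldFullC K N := by
  have hj : jqModC K ∈ modularFunctionFieldFullC K N := jqModC_mem_full K N
  have hj3 : jqNModC K 3 ∈ modularFunctionFieldFullC K N := jqModCd_mem_full K N hN
  have hc := fun (c : ℕ) [c.AtLeastTwo] => ofNat_mem_full K N c
  rw [h3R_eq]
  refine div_mem ?_ ?_
  · exact add_mem (sub_mem (add_mem (sub_mem (add_mem (add_mem (add_mem (sub_mem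
      (mul_mem hj (pow_mem hj3 3)) (mul_mem (hc _) (pow_mem hj3 3)))
      (mul_mem (hc _) (mul_mem hj (pow_mem hj3 2)))) (mul_mem (hc _) (pow_mem hj3 2)))
      (mul_mem (hc _) (mul_mem hj hj3))) (mul_mem (hc _) hj3)) (mul_mem (hc _) (pow_mem hj 2)))
      (mul_mem (hc _) hj)) (hc _)
  · exact add_mem (sub_mem (add_mem (add_mem (add_mem (sub_mem (add_mem (sub_mem
      (pow_mem hj3 3) (mul_mem (hc _) (pow_mem hj3 2))) (mul_mem (hc _) hj3)) (hc _))
      (mul_mem (hc _) hj)) (mul_mem (hc _) (mul_mem hj hj3)))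
      (mul_mem (hc _) (mul_mem hj (pow_mem hj3 2)))) (mul_mem (hc _) (pow_mem hj 2)))
      (mul_mem (hc _) (mul_mem (pow_mem hj 2) hj3))

/-! ### transcendence -/

theorem transcendental_of_coeff_neg_one {x : LaurentSeries K} (hx : x.coeff (-1) = 1) :
    Transcendental K x := by
  have hord : x.order < 0 := by
    have h : x.coeff (-1) ≠ 0 := by rw [hx]; exact one_ne_zero
    have := HahnSeries.order_le_of_coeff_ne_zero h
    omega
  rw [transcendental_iff]
  intro p hp
  by_contra hne
  obtain ⟨m, -, hm⟩ := Fermat.Agent.S28.exists_coeff_ne_zero_of_pole (k := K) x hord p hne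
  apply hm
  have : Fermat.Agent.S28.evP K x p = 0 := hp
  rw [this]
  rfl

theorem transcendental_h2R : Transcendental K (h2R K) :=
  transcendental_of_coeff_neg_one K (h2R_coeff_neg_one K)

theorem transcendental_h3R : Transcendental K (h3R K) :=
  transcendental_of_coeff_neg_one K (h3R_coeff_neg_one K)

theorem transcendental_subtype {S : IntermediateField K (LaurentSeries K)} {x : LaurentSeries K}
    (hx : x ∈ S) (ht : Transcendental K x) : Transcendental K (⟨x, hx⟩ : S) :=
  (transcendental_algebraMap_iff (R := K) (S := S) (A := LaurentSeries K) (a := ⟨x, hx⟩)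
    (algebraMap S (LaurentSeries K)).injective).mp ht

/-! ### `K(h_r) = K(j, j(q^r))` -/

theorem jqModC_eq_h2R : jqModC K = (h2R K + 256) ^ 3 / h2R K ^ 2 := by
  rw [eq_div_iff (pow_ne_zero 2 (h2R_ne_zero K))]; exact jqModC_mul_h2R K

theorem jqNModC_two_eq_h2R : jqNModC K 2 = (h2R K + 16) ^ 3 / h2R K := by
  rw [eq_div_iff (h2R_ne_zero K)]; exact jqNModC_two_mul_h2R K

theorem jqModC_eq_h3R : jqModC K = (h3R K + 27) * (h3R K + 243) ^ 3 / h3R K ^ 3 := by
  rw [eq_div_iff (pow_ne_zero 3 (h3R_ne_zero K))]; exact jqModC_mul_h3R K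

theorem jqNModC_three_eq_h3R : jqNModC K 3 = (h3R K + 27) * (h3R K + 3) ^ 3 / h3R K := by
  rw [eq_div_iff (h3R_ne_zero K)]; exact jqNModC_three_mul_h3R K

theorem ofNat_mem_intermediateField (S : IntermediateField K (LaurentSeries K)) (c : ℕ)
    [c.AtLeastTwo] : (OfNat.ofNat c : LaurentSeries K) ∈ S := by
  have : (OfNat.ofNat c : LaurentSeries K) = algebraMap K (LaurentSeries K) (OfNat.ofNat c) :=
    (map_ofNat _ c).symm
  rw [this]
  exact S.algebraMap_mem _

theorem jqModC_mem_adjoin_h2R : jqModC K ∈ K⟮h2R K⟯ := by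
  have hh : h2R K ∈ K⟮h2R K⟯ := mem_adjoin_simple_self K _
  rw [jqModC_eq_h2R]
  exact div_mem (pow_mem (add_mem hh (ofNat_mem_intermediateField K _ _)) 3) (pow_mem hh 2)

theorem jqNModC_two_mem_adjoin_h2R : jqNModC K 2 ∈ K⟮h2R K⟯ := by
  have hh : h2R K ∈ K⟮h2R K⟯ := mem_adjoin_simple_self K _
  rw [jqNModC_two_eq_h2R]
  exact div_mem (pow_mem (add_mem hh (ofNat_mem_intermediateField K _ _)) 3) hh

theorem jqModC_mem_adjoin_h3R : jqModC K ∈ K⟮h3R K⟯ := by
  have hh : h3R K ∈ K⟮h3R K⟯ := mem_adjoin_simple_self K _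
  rw [jqModC_eq_h3R]
  exact div_mem (mul_mem (add_mem hh (ofNat_mem_intermediateField K _ _))
    (pow_mem (add_mem hh (ofNat_mem_intermediateField K _ _)) 3)) (pow_mem hh 3)

theorem jqNModC_three_mem_adjoin_h3R : jqNModC K 3 ∈ K⟮h3R K⟯ := by
  have hh : h3R K ∈ K⟮h3R K⟯ := mem_adjoin_simple_self K _
  rw [jqNModC_three_eq_h3R]
  exact div_mem (mul_mem (add_mem hh (ofNat_mem_intermediateField K _ _))
    (pow_mem (add_mem hh (ofNat_mem_intermediateField K _ _)) 3)) hh

/-- `K(X₀(2)) = K(h₂)`. -/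
theorem full_two_eq_adjoin : modularFunctionFieldFullC K 2 = K⟮h2R K⟯ := by
  apply le_antisymm
  · rw [modularFunctionFieldFullC, adjoin_le_iff]
    rintro x ⟨d, hne, hd, rfl⟩
    rcases (Nat.dvd_prime Nat.prime_two).mp hd with rfl | rfl
    · rw [qExpand_one_apply]; exact jqModC_mem_adjoin_h2R K
    · exact jqNModC_two_mem_adjoin_h2R K
  · rw [adjoin_simple_le_iff]
    exact h2R_mem_full K dvd_rfl

/-- `K(X₀(3)) = K(h₃)`. -/
theorem full_three_eq_adjoin : modularFunctionFieldFullC K 3 = K⟮h3R K⟯ := by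
  apply le_antisymm
  · rw [modularFunctionFieldFullC, adjoin_le_iff]
    rintro x ⟨d, hne, hd, rfl⟩
    rcases (Nat.dvd_prime Nat.prime_three).mp hd with rfl | rfl
    · rw [qExpand_one_apply]; exact jqModC_mem_adjoin_h3R K
    · exact jqNModC_three_mem_adjoin_h3R K
  · rw [adjoin_simple_le_iff]
    exact h3R_mem_full K dvd_rfl

end Field

/-! ### integrality -/

section Integral

open Polynomial

variable {A S : Type*} [CommRing A] [CommRing S] [Algebra A S]

theorem isIntegral_of_eq2 (h : S) (a : A) (e : algebraMap A S a * h ^ 2 = (h + 256) ^ 3) :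
    IsIntegral A h := by
  refine ⟨X ^ 3 + (C (768 - a) * X ^ 2 + C 196608 * X + C 16777216), ?_, ?_⟩
  · monicity!
  · simp only [eval₂_add, eval₂_mul, eval₂_pow, eval₂_X, eval₂_C]
    simp only [map_sub, map_ofNat]
    linear_combination -e

theorem isIntegral_of_eq3 (h : S) (a : A)
    (e : algebraMap A S a * h ^ 3 = (h + 27) * (h + 243) ^ 3) : IsIntegral A h := by
  refine ⟨X ^ 4 + (C (756 - a) * X ^ 3 + C 196830 * X ^ 2 + C 19131876 * X + C 387420489), ?_, ?_⟩
  · monicity!
  · simp only [eval₂_add, eval₂_mul, eval₂_pow, eval₂_X, eval₂_C]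
    simp only [map_sub, map_ofNat]
    linear_combination -e

/-- `u = h⁻¹` is integral as soon as `2` is invertible. -/
theorem isIntegral_inv_of_eq2 (h u : S) (hu : h * u = 1) (a c : A) (hc : c * 16777216 = 1)
    (e : algebraMap A S a * h ^ 2 = (h + 256) ^ 3) : IsIntegral A u := by
  refine ⟨X ^ 3 + (C (c * 196608) * X ^ 2 + C (c * (768 - a)) * X + C c), ?_, ?_⟩
  · monicity!
  · have hc' : algebraMap A S c * 16777216 = 1 := by
      have := congrArg (algebraMap A S) hc
      simpa only [map_mul, map_ofNat, map_one] using this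
    simp only [eval₂_add, eval₂_mul, eval₂_pow, eval₂_X, eval₂_C]
    simp only [map_sub, map_mul, map_ofNat]
    have e' : algebraMap A S a * u = 1 + 768 * u + 196608 * u ^ 2 + 16777216 * u ^ 3 := by
      have := congrArg (· * u ^ 3) e
      beta_reduce at this
      have h2 : h ^ 2 * u ^ 3 = u := by
        calc h ^ 2 * u ^ 3 = (h * u) ^ 2 * u := by ring
          _ = u := by rw [hu]; ring
      calc algebraMap A S a * u = algebraMap A S a * (h ^ 2 * u ^ 3) := by rw [h2]
        _ = (h + 256) ^ 3 * u ^ 3 := by rw [← this]; ring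
        _ = (h * u + 256 * u) ^ 3 := by ring
        _ = _ := by rw [hu]; ring
    linear_combination (-u ^ 3) * hc' - algebraMap A S c * e'

/-- `u = h⁻¹` is integral as soon as `3` is invertible. -/
theorem isIntegral_inv_of_eq3 (h u : S) (hu : h * u = 1) (a c : A) (hc : c * 387420489 = 1)
    (e : algebraMap A S a * h ^ 3 = (h + 27) * (h + 243) ^ 3) : IsIntegral A u := by
  refine ⟨X ^ 4 + (C (c * 19131876) * X ^ 3 + C (c * 196830) * X ^ 2 + C (c * (756 - a)) * X
    + C c), ?_, ?_⟩
  · monicity!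
  · have hc' : algebraMap A S c * 387420489 = 1 := by
      have := congrArg (algebraMap A S) hc
      simpa only [map_mul, map_ofNat, map_one] using this
    simp only [eval₂_add, eval₂_mul, eval₂_pow, eval₂_X, eval₂_C]
    simp only [map_sub, map_mul, map_ofNat]
    have e' : algebraMap A S a * u =
        1 + 756 * u + 196830 * u ^ 2 + 19131876 * u ^ 3 + 387420489 * u ^ 4 := by
      have := congrArg (· * u ^ 4) e
      beta_reduce at this
      have h2 : h ^ 3 * u ^ 4 = u := by
        calc h ^ 3 * u ^ 4 = (h * u) ^ 3 * u := by ring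
          _ = u := by rw [hu]; ring
      calc algebraMap A S a * u = algebraMap A S a * (h ^ 3 * u ^ 4) := by rw [h2]
        _ = (h + 27) * (h + 243) ^ 3 * u ^ 4 := by rw [← this]; ring
        _ = (h * u + 27 * u) * (h * u + 243 * u) ^ 3 := by ring
        _ = _ := by rw [hu]; ring
    linear_combination (-u ^ 4) * hc' - algebraMap A S c * e'

end Integral

end Fermat.Agent.Lib.Hauptmodul
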